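-- Statement S02: a counterexample to FLT for a prime p ≥ 5 yields a Frey package.
import Fermat.Statements.S02

set_option autoImplicit false
open FreyPackage

namespace Fermat.Agent.S02

/-- Coprime case with `a` odd (`a ≡ 3 mod 4` after a possible sign flip) and `b` even. -/
theorem of_coprime_odd_even {a b c : ℤ} (ha : a ≠ 0) (hb : b ≠ 0) (hc : c ≠ 0)
    (p : ℕ) (pp : p.Prime) (hp5 : 5 ≤ p) (H : a ^ p + b ^ p = c ^ p)
    (hab : gcd a b = 1) (haodd : a % 2 = 1) (hbeven : b % 2 = 0) : Nonempty FreyPackage := by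
  have hpodd : Odd p := pp.odd_of_ne_two (by omega)
  have hb2 : ((b : ℤ) : ZMod 2) = 0 := by
    rw [ZMod.intCast_zmod_eq_zero_iff_dvd]
    exact Int.dvd_of_emod_eq_zero hbeven
  have hnb2 : (((-b : ℤ)) : ZMod 2) = 0 := by
    rw [ZMod.intCast_zmod_eq_zero_iff_dvd]
    exact (Int.dvd_neg).2 (Int.dvd_of_emod_eq_zero hbeven)
  have h4 : a % 4 = 1 ∨ a % 4 = 3 := by omega
  rcases h4 with h4 | h4
  · -- flip all signs
    refine ⟨⟨-a, -b, -c, neg_ne_zero.2 ha, neg_ne_zero.2 hb, neg_ne_zero.2 hc, p, pp, hp5, ?_, ?_,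
      ?_, hnb2⟩⟩
    · rw [hpodd.neg_pow, hpodd.neg_pow, hpodd.neg_pow, ← H]; ring
    · rw [gcd_neg, neg_gcd]; exact hab
    · have h3 : ((3 : ℤ) : ZMod 4) = 3 := by norm_cast
      rw [← h3, ZMod.intCast_eq_intCast_iff_dvd_sub]
      have : ((4 : ℕ) : ℤ) = 4 := by norm_cast
      rw [this]
      omega
  · refine ⟨⟨a, b, c, ha, hb, hc, p, pp, hp5, H, hab, ?_, hb2⟩⟩
    have h3 : ((3 : ℤ) : ZMod 4) = 3 := by norm_cast
    rw [← h3, ZMod.intCast_eq_intCast_iff_dvd_sub]
    have : ((4 : ℕ) : ℤ) = 4 := by norm_cast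
    rw [this]
    omega

/-- Coprime case. -/
theorem of_coprime {a b c : ℤ} (ha : a ≠ 0) (hb : b ≠ 0) (hc : c ≠ 0)
    (p : ℕ) (pp : p.Prime) (hp5 : 5 ≤ p) (H : a ^ p + b ^ p = c ^ p)
    (hab : gcd a b = 1) : Nonempty FreyPackage := by
  have hpodd : Odd p := pp.odd_of_ne_two (by omega)
  have hppos : 0 < p := by omega
  have hac : gcd a c = 1 := by rw [← gcdab_eq_gcdac hppos H, hab]
  have hba : gcd b a = 1 := by rw [gcd_comm]; exact hab
  rcases Int.emod_two_eq_zero_or_one a with ha2 | ha2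
  · -- a even, so b is odd: swap a and b
    rcases Int.emod_two_eq_zero_or_one b with hb2 | hb2
    · exfalso
      have h2a : (2 : ℤ) ∣ a := Int.dvd_of_emod_eq_zero ha2
      have h2b : (2 : ℤ) ∣ b := Int.dvd_of_emod_eq_zero hb2
      have h2 : (2 : ℤ) ∣ gcd a b := dvd_gcd h2a h2b
      rw [hab] at h2
      omega
    · exact of_coprime_odd_even hb ha hc p pp hp5 (by rw [add_comm]; exact H) hba hb2 ha2
  · rcases Int.emod_two_eq_zero_or_one b with hb2 | hb2
    · exact of_coprime_odd_even ha hb hc p pp hp5 H hab ha2 hb2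
    · -- a, b odd, so c is even: use a ^ p + (-c) ^ p = (-b) ^ p
      have hc2 : c % 2 = 0 := by
        have hap : a ^ p % 2 = 1 := by
          rw [← Int.odd_iff] at ha2 ⊢; exact ha2.pow
        have hbp : b ^ p % 2 = 1 := by
          rw [← Int.odd_iff] at hb2 ⊢; exact hb2.pow
        have hcp : c ^ p % 2 = 0 := by rw [← H]; omega
        rcases Int.emod_two_eq_zero_or_one c with h | h
        · exact h
        · exfalso
          have : c ^ p % 2 = 1 := by
            rw [← Int.odd_iff] at h ⊢; exact h.pow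
          omega
      refine of_coprime_odd_even (a := a) (b := -c) (c := -b) ha (neg_ne_zero.2 hc)
        (neg_ne_zero.2 hb) p pp hp5 ?_ ?_ ha2 ?_
      · rw [hpodd.neg_pow, hpodd.neg_pow, ← H]; ring
      · rw [gcd_neg]; exact hac
      · omega

theorem result (a b c : ℤ) (ha : a ≠ 0) (hb : b ≠ 0) (hc : c ≠ 0) (p : ℕ) (pp : p.Prime) (hp5 : 5 ≤ p) (H : a ^ p + b ^ p = c ^ p) : Nonempty FreyPackage := by
  have hppos : 0 < p := by omega
  have hp0 : p ≠ 0 := hppos.ne'
  -- divide out by the gcd of a and b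
  have hd0 : (gcd a b : ℤ) ≠ 0 := by
    intro h
    exact ha ((gcd_eq_zero_iff a b).1 h).1
  obtain ⟨a', ha'⟩ : gcd a b ∣ a := gcd_dvd_left a b
  obtain ⟨b', hb'⟩ : gcd a b ∣ b := gcd_dvd_right a b
  have hdc : gcd a b ∣ c := by
    rw [← Int.pow_dvd_pow_iff hp0, ← H]
    exact dvd_add (pow_dvd_pow_of_dvd (gcd_dvd_left a b) p) (pow_dvd_pow_of_dvd (gcd_dvd_right a b) p)
  obtain ⟨c', hc'⟩ := hdc
  set d := gcd a b with hd
  have ha'0 : a' ≠ 0 := by rintro rfl; exact ha (by rw [ha']; ring)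
  have hb'0 : b' ≠ 0 := by rintro rfl; exact hb (by rw [hb']; ring)
  have hc'0 : c' ≠ 0 := by rintro rfl; exact hc (by rw [hc']; ring)
  have H' : a' ^ p + b' ^ p = c' ^ p := by
    have hdp : d ^ p ≠ 0 := pow_ne_zero p hd0
    apply mul_left_cancel₀ hdp
    rw [mul_add, ← mul_pow, ← mul_pow, ← mul_pow, ← ha', ← hb', ← hc']
    exact H
  have hab' : gcd a' b' = 1 := by
    have h1 : gcd (d * a') (d * b') = normalize d * gcd a' b' := gcd_mul_left d a' b'
    rw [← ha', ← hb'] at h1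
    have h2 : normalize d = d := by rw [hd]; exact normalize_gcd a b
    rw [h2] at h1
    have h3 : d * 1 = d * gcd a' b' := by rw [mul_one]; exact h1
    exact (mul_left_cancel₀ hd0 h3).symm
  exact of_coprime ha'0 hb'0 hc'0 p pp hp5 H' hab'

end Fermat.Agent.S02
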