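-- Statement S07: the space of weight 2 cusp forms of level Gamma0(2) is zero.
import Fermat.Statements.S07
import Fermat.Prelude.Thm_ModularForm_sturm_bound_Gamma0

set_option autoImplicit false
open WeierstrassCurve WeierstrassCurve.Affine WeierstrassCurve.Affine.Point
open CuspForm ModularFormClass UpperHalfPlane
open ModularForm

namespace Fermat.Agent.S07

open scoped MatrixGroups

/-- The first column modulo 2 of a matrix in `SL(2, ℤ)`. -/
def colMod2 (g : SL(2, ℤ)) : ZMod 2 × ZMod 2 := ((g 0 0 : ZMod 2), (g 1 0 : ZMod 2))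

lemma colMod2_eq_imp (g h : SL(2, ℤ)) (hgh : colMod2 g = colMod2 h) :
    g⁻¹ * h ∈ CongruenceSubgroup.Gamma0 2 := by
  rw [CongruenceSubgroup.Gamma0_mem]
  simp only [colMod2, Prod.mk.injEq] at hgh
  obtain ⟨h0, h1⟩ := hgh
  rw [Matrix.SpecialLinearGroup.coe_mul, Matrix.mul_apply, Fin.sum_univ_two,
    Matrix.SpecialLinearGroup.coe_inv, Matrix.adjugate_fin_two]
  simp only [Matrix.of_apply, Matrix.cons_val_zero, Matrix.cons_val_one, Matrix.cons_val',
    Matrix.cons_val_fin_one]
  push_cast
  rw [← h0, ← h1]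
  ring

/-- The index of `Γ₀(2)` in `SL(2, ℤ)` is at most `4` (it is in fact `3`). -/
lemma index_Gamma0_two_le : (CongruenceSubgroup.Gamma0 2).index ≤ 4 := by
  classical
  have hinj : Function.Injective
      (fun q : SL(2, ℤ) ⧸ CongruenceSubgroup.Gamma0 2 => colMod2 q.out) := by
    intro q q' hqq'
    have h := colMod2_eq_imp _ _ hqq'
    rw [← QuotientGroup.eq] at h
    simpa using h
  have h4 : Nat.card (ZMod 2 × ZMod 2) = 4 := by
    simp
  calc (CongruenceSubgroup.Gamma0 2).index
      = Nat.card (SL(2, ℤ) ⧸ CongruenceSubgroup.Gamma0 2) := rfl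
    _ ≤ Nat.card (ZMod 2 × ZMod 2) := Nat.card_le_card_of_injective _ hinj
    _ = 4 := h4

theorem result (f : CuspForm (CongruenceSubgroup.Gamma0 2) 2) : f = 0 := by
  have hidx := index_Gamma0_two_le
  have h1 : (1 : ℝ) ∈ (CongruenceSubgroup.Gamma0 2 : Subgroup (GL (Fin 2) ℝ)).strictPeriods := by
    simp [CongruenceSubgroup.strictPeriods_Gamma0]
  -- view `f` as a modular form
  have hF : (CuspForm.toModularFormₗ f : ModularForm (CongruenceSubgroup.Gamma0 2) 2) = 0 := by
    apply ModularForm.sturm_bound_Gamma0 2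
    intro n hn
    have hn0 : n = 0 := by
      have : ((2 : ℤ) * ((CongruenceSubgroup.Gamma0 2).index : ℤ)).toNat / 12 = 0 := by
        have : ((2 : ℤ) * ((CongruenceSubgroup.Gamma0 2).index : ℤ)).toNat
            = 2 * (CongruenceSubgroup.Gamma0 2).index := by
          have : ((2 : ℤ) * ((CongruenceSubgroup.Gamma0 2).index : ℤ))
              = ((2 * (CongruenceSubgroup.Gamma0 2).index : ℕ) : ℤ) := by push_cast; ring
          rw [this, Int.toNat_natCast]
        rw [this]
        omega
      omega
    subst hn0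
    have := CuspFormClass.qExpansion_coeff_zero (f := f) (h := 1) one_pos h1
    exact this
  apply CuspForm.toModularFormₗ_injective
  rw [hF, _root_.map_zero]

end Fermat.Agent.S07
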