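import Fermat.Statements.S08
import Fermat.Prelude.Thm_ModularForm_sturm_bound_Gamma0
import Fermat.Prelude.Thm_CongruenceSubgroup_one_mem_strictPeriods_Gamma0

set_option autoImplicit false
open WeierstrassCurve WeierstrassCurve.Affine WeierstrassCurve.Affine.Point
open CuspForm ModularFormClass UpperHalfPlane
open ModularForm

namespace Fermat.Agent.S08

/-- `Γ₀(1)` is all of `SL(2, ℤ)`. -/
theorem Gamma0_one_eq_top_aux : CongruenceSubgroup.Gamma0 1 = ⊤ := by
  ext γ
  simp only [CongruenceSubgroup.Gamma0_mem, Subgroup.mem_top, iff_true]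
  exact Subsingleton.elim _ _

/-- The index of `Γ₀(1)` in `SL(2, ℤ)` is `1`. -/
theorem Gamma0_one_index_aux : (CongruenceSubgroup.Gamma0 1).index = 1 := by
  rw [Gamma0_one_eq_top_aux, Subgroup.index_top]

theorem result (f : CuspForm (CongruenceSubgroup.Gamma0 1) 2) : f = 0 := by
  -- View `f` as a modular form `g` of the same level and weight.
  let g : ModularForm (CongruenceSubgroup.Gamma0 1) 2 :=
    { toSlashInvariantForm := f.toSlashInvariantForm
      holo' := f.holo'
      bdd_at_cusps' := fun {c} hc => ModularFormClass.bdd_at_cusps f hc }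
  have hcoe : (g : ℍ → ℂ) = (f : ℍ → ℂ) := rfl
  have hg : g = 0 := by
    refine ModularForm.sturm_bound_Gamma0 1 g ?_
    intro n hn
    have hn0 : n = 0 := by
      rw [Gamma0_one_index_aux] at hn
      have h0 : ((2 : ℤ) * ((1 : ℕ) : ℤ)).toNat / 12 = 0 := by decide
      rw [h0] at hn
      exact Nat.le_zero.mp hn
    subst hn0
    rw [hcoe]
    exact CuspFormClass.qExpansion_coeff_zero f one_pos
      (CongruenceSubgroup.one_mem_strictPeriods_Gamma0 1)
  ext z
  have hz : g z = 0 := by rw [hg]; rfl
  have hfz : f z = g z := rfl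
  rw [hfz, hz]
  rfl

end Fermat.Agent.S08
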